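/-
S52, brick SPEC20 (helper20), part 2: **the place `T = t` of the rational function field `F(T)`**.

* `placeAt t : ValuationSubring (RatFunc F)` : the rational functions whose (reduced) denominator
  does not vanish at `t`;
* `evAt t : placeAt t →+* F` : evaluation at `t`; it kills exactly the non-units
  (`isUnit_of_evAt_ne_zero`, `evAt_eq_zero_of_mem_maximalIdeal`);
* `polyToPlace t : F[X] →+* placeAt t`, `evAt_polyToPlace`;
* compatibility with a ring endomorphism `Φ` of `F(T)` acting through `σ : F →+* F` on the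
  coefficients (`mem_placeAt_of_semilinear`, `evAt_semilinear`), and the coefficientwise action
  `mapCoeff σ` of a field homomorphism.
-/
import Mathlib

set_option autoImplicit false

open Polynomial

namespace Fermat.Agent.S52.Spec.Place20

variable {F : Type*} [Field F]

theorem eval_ne_zero_of_dvd {p q : F[X]} {t : F} (h : p ∣ q) (hq : q.eval t ≠ 0) :
    p.eval t ≠ 0 := by
  rintro hp
  obtain ⟨c, rfl⟩ := h
  simp [hp] at hq

/-- the local ring of `F(T)` at `T = t`: rational functions whose denominator does not vanish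
at `t`. -/
def placeAt (t : F) : ValuationSubring (RatFunc F) where
  carrier := {r | r.denom.eval t ≠ 0}
  mul_mem' := fun {x y} hx hy =>
    eval_ne_zero_of_dvd (RatFunc.denom_mul_dvd x y) (by rw [eval_mul]; exact mul_ne_zero hx hy)
  one_mem' := by simp [RatFunc.denom_one]
  add_mem' := fun {x y} hx hy =>
    eval_ne_zero_of_dvd (RatFunc.denom_add_dvd x y) (by rw [eval_mul]; exact mul_ne_zero hx hy)
  zero_mem' := by simp [RatFunc.denom_zero]
  neg_mem' := fun {x} hx => by
    have e : -x = algebraMap F[X] (RatFunc F) (-1) * x := by simp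
    have h1 : (RatFunc.denom (algebraMap F[X] (RatFunc F) (-1))).eval t ≠ 0 := by
      rw [RatFunc.denom_algebraMap]; simp
    show (RatFunc.denom (-x)).eval t ≠ 0
    rw [e]
    exact eval_ne_zero_of_dvd (RatFunc.denom_mul_dvd _ x)
      (by rw [eval_mul]; exact mul_ne_zero h1 hx)
  mem_or_inv_mem' := fun x => by
    by_cases hx : x = 0
    · left; simp [hx, RatFunc.denom_zero]
    by_cases h : x.denom.eval t = 0
    · right
      obtain ⟨a, b, hab⟩ := RatFunc.isCoprime_num_denom x
      have hnum : x.num.eval t ≠ 0 := by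
        intro h0
        have := congrArg (eval t) hab
        simp [h, h0] at this
      exact eval_ne_zero_of_dvd (RatFunc.denom_inv_dvd hx) hnum
    · left; exact h

theorem mem_placeAt_iff {t : F} {r : RatFunc F} : r ∈ placeAt t ↔ r.denom.eval t ≠ 0 := Iff.rfl

/-- evaluation at `t`. -/
noncomputable def evAt (t : F) : placeAt t →+* F where
  toFun r := RatFunc.eval (RingHom.id F) t (r : RatFunc F)
  map_one' := RatFunc.eval_one _ _
  map_mul' x y := RatFunc.eval_mul (RingHom.id F) t x.2 y.2
  map_zero' := RatFunc.eval_zero _ _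
  map_add' x y := RatFunc.eval_add (RingHom.id F) t x.2 y.2

theorem evAt_apply (t : F) (r : placeAt t) :
    evAt t r = RatFunc.eval (RingHom.id F) t (r : RatFunc F) := rfl

/-- polynomials are regular at every `t`. -/
theorem algebraMap_mem (t : F) (p : F[X]) : algebraMap F[X] (RatFunc F) p ∈ placeAt t := by
  rw [mem_placeAt_iff, RatFunc.denom_algebraMap]; simp

/-- the inclusion of the polynomials in the local ring at `t`. -/
noncomputable def polyToPlace (t : F) : F[X] →+* placeAt t :=
  (algebraMap F[X] (RatFunc F)).codRestrict (placeAt t).toSubring (algebraMap_mem t)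

theorem coe_polyToPlace (t : F) (p : F[X]) :
    ((polyToPlace t p : placeAt t) : RatFunc F) = algebraMap F[X] (RatFunc F) p := rfl

theorem evAt_polyToPlace (t : F) (p : F[X]) : evAt t (polyToPlace t p) = p.eval t := by
  rw [evAt_apply, coe_polyToPlace, RatFunc.eval_algebraMap]
  simp [Polynomial.eval₂_id]

theorem subtype_comp_polyToPlace (t : F) :
    (placeAt t).subtype.comp (polyToPlace t) = algebraMap F[X] (RatFunc F) := rfl

theorem evAt_eq_div {t : F} (r : placeAt t) :
    evAt t r = (r : RatFunc F).num.eval t / (r : RatFunc F).denom.eval t := rfl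

/-- an element whose value at `t` is nonzero is a unit of the local ring. -/
theorem isUnit_of_evAt_ne_zero {t : F} {r : placeAt t} (h : evAt t r ≠ 0) : IsUnit r := by
  have hnum : (r : RatFunc F).num.eval t ≠ 0 := by
    intro h0
    apply h
    rw [evAt_eq_div, h0, zero_div]
  have hr0 : (r : RatFunc F) ≠ 0 := by
    intro h0
    rw [h0, RatFunc.num_zero] at hnum
    simp at hnum
  have hinv : (r : RatFunc F)⁻¹ ∈ placeAt t :=
    eval_ne_zero_of_dvd (RatFunc.denom_inv_dvd hr0) hnum
  exact isUnit_iff_exists_inv.mpr ⟨⟨_, hinv⟩, Subtype.ext (mul_inv_cancel₀ hr0)⟩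

/-- the evaluation kills the maximal ideal. -/
theorem evAt_eq_zero_of_mem_maximalIdeal {t : F} {r : placeAt t}
    (h : r ∈ IsLocalRing.maximalIdeal (placeAt t)) : evAt t r = 0 := by
  by_contra h0
  exact (IsLocalRing.mem_maximalIdeal r).mp h (isUnit_of_evAt_ne_zero h0)

theorem valuation_eq_one_of_evAt_ne_zero {t : F} {r : placeAt t} (h : evAt t r ≠ 0) :
    (placeAt t).valuation (r : RatFunc F) = 1 :=
  ((placeAt t).valuation_eq_one_iff r).mp (isUnit_of_evAt_ne_zero h)

/-- nonzero integers are units at every place, in characteristic zero. -/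
theorem valuation_natCast_eq_one [CharZero F] (t : F) {n : ℕ} (hn : n ≠ 0) :
    (placeAt t).valuation ((n : ℕ) : RatFunc F) = 1 := by
  have h : evAt t (n : placeAt t) ≠ 0 := by
    rw [map_natCast]
    exact_mod_cast hn
  have := valuation_eq_one_of_evAt_ne_zero h
  simpa using this

/-! ### Semilinear endomorphisms -/

section Semilinear

variable {F' : Type*} [Field F'] {σ : F →+* F'} {Φ : RatFunc F →+* RatFunc F'}
  (hΦ : ∀ p : F[X], Φ (algebraMap F[X] (RatFunc F) p) = algebraMap F'[X] (RatFunc F') (p.map σ))

include hΦ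

theorem semilinear_eq_div (r : RatFunc F) :
    Φ r = algebraMap F'[X] (RatFunc F') (r.num.map σ)
      / algebraMap F'[X] (RatFunc F') (r.denom.map σ) := by
  conv_lhs => rw [← RatFunc.num_div_denom r]
  rw [map_div₀, hΦ, hΦ]

theorem mem_placeAt_of_semilinear {t : F} {r : RatFunc F} (hr : r ∈ placeAt t) :
    Φ r ∈ placeAt (σ t) := by
  rw [semilinear_eq_div hΦ r]
  apply eval_ne_zero_of_dvd (RatFunc.denom_div_dvd _ _)
  rw [Polynomial.eval_map_apply]
  exact (map_ne_zero σ).mpr hr

theorem evAt_semilinear {t : F} (r : placeAt t) :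
    evAt (σ t) ⟨Φ r, mem_placeAt_of_semilinear hΦ r.2⟩ = σ (evAt t r) := by
  have hd : (r : RatFunc F).denom.eval t ≠ 0 := r.2
  have hd' : ((r : RatFunc F).denom.map σ).eval (σ t) ≠ 0 := by
    rw [Polynomial.eval_map_apply]
    exact (map_ne_zero σ).mpr hd
  -- `Φ r * denom^σ = num^σ` in the local ring at `σ t`
  have e1 : (⟨Φ r, mem_placeAt_of_semilinear hΦ r.2⟩ : placeAt (σ t))
      * polyToPlace (σ t) ((r : RatFunc F).denom.map σ)
      = polyToPlace (σ t) ((r : RatFunc F).num.map σ) := by
    apply Subtype.ext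
    show Φ r * algebraMap F'[X] (RatFunc F') ((r : RatFunc F).denom.map σ)
      = algebraMap F'[X] (RatFunc F') ((r : RatFunc F).num.map σ)
    rw [semilinear_eq_div hΦ (r : RatFunc F)]
    have hne : algebraMap F'[X] (RatFunc F') ((r : RatFunc F).denom.map σ) ≠ 0 := by
      intro h0
      have := (map_eq_zero_iff _ (RatFunc.algebraMap_injective F')).mp h0
      rw [this] at hd'
      simp at hd'
    rw [div_mul_cancel₀ _ hne]
  have e2 := congrArg (evAt (σ t)) e1
  rw [map_mul, evAt_polyToPlace, evAt_polyToPlace, Polynomial.eval_map_apply,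
    Polynomial.eval_map_apply] at e2
  rw [evAt_eq_div r, map_div₀, eq_div_iff ((map_ne_zero σ).mpr hd)]
  exact e2

end Semilinear

/-! ### The coefficientwise action of a field homomorphism -/

section MapCoeff

variable {F' : Type*} [Field F'] (σ : F →+* F')

/-- the coefficientwise action of a field homomorphism on rational functions. -/
noncomputable def mapCoeff : RatFunc F →+* RatFunc F' :=
  RatFunc.mapRingHom (Polynomial.mapRingHom σ) (by
    intro p hp
    rw [Submonoid.mem_comap, mem_nonZeroDivisors_iff_ne_zero] at *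
    rw [Polynomial.coe_mapRingHom]
    exact (Polynomial.map_ne_zero_iff σ.injective).mpr hp)

theorem mapCoeff_algebraMap (p : F[X]) :
    mapCoeff σ (algebraMap F[X] (RatFunc F) p) = algebraMap F'[X] (RatFunc F') (p.map σ) := by
  have h := RatFunc.map_apply_div (K := F) (R := F') (Polynomial.mapRingHom σ) (by
    intro p hp
    rw [Submonoid.mem_comap, mem_nonZeroDivisors_iff_ne_zero] at *
    rw [Polynomial.coe_mapRingHom]
    exact (Polynomial.map_ne_zero_iff σ.injective).mpr hp) p 1
  simpa [mapCoeff, RatFunc.coe_mapRingHom_eq_coe_map] using h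

end MapCoeff

end Fermat.Agent.S52.Spec.Place20
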