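/-
S52, brick SPEC20 (helper20), part 1: **reduction of torsion points along an arbitrary residue map**.

`A` a valuation subring of a field `K`, `π : A →+* κ` a ring homomorphism to a field killing the
maximal ideal of `A` (so `κ` is an extension of the residue field of `A`; e.g. `K = F(T)`,
`A` the local ring at `T = t`, `π` the evaluation at `t`).  This file transports the results of
`ES/Q58/Red39a` (helper39; reduction relation for the abstract residue field
`IsLocalRing.ResidueField A`) to the relation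

  `RedPi A π V Vκ P Q`  :  "`Q ∈ Vκ(κ)` is the reduction of `P ∈ V(K)` along `π`".

Main results (for `IsModelPi A π WA V Vκ`, i.e. `V = WA_K`, `Vκ = WA_κ`, `π` kills `𝔪_A`):
`exists_red`, `nsmul_eq_zero`, `eq_of_red_eq` (injectivity on odd torsion prime to the residue
characteristic), `red_add`, `red_neg`, `red_sub`, `red_nsmul`, `red_zsmul`; `RedPi.unique`,
`RedPi.eq_zero_iff`.
-/
import Mathlib
import Fermat.Agent.ES.Q58.Red39a

set_option autoImplicit false
set_option linter.unusedSectionVars false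

open WeierstrassCurve WeierstrassCurve.Affine

namespace Fermat.Agent.S52.Spec.RedPi20

open Fermat.Agent.ES.Q58.Red39

section Setup

variable {K : Type*} [Field K] [DecidableEq K] (A : ValuationSubring K)
  {κ : Type*} [Field κ] [DecidableEq κ] (π : A →+* κ)

/-- `Q` is the reduction of `P` along `π`. -/
def RedPi (V : Affine K) (Vκ : Affine κ) (P : V.Point) (Q : Vκ.Point) : Prop :=
  (P = 0 ∧ Q = 0) ∨ ∃ (a b : A) (h : V.Nonsingular (a : K) (b : K))
    (h' : Vκ.Nonsingular (π a) (π b)), P = Point.some _ _ h ∧ Q = Point.some _ _ h'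

/-- `V`, `Vκ` are the generic fibre and the fibre along `π` of the model `WA`, and `π` kills the
maximal ideal. -/
structure IsModelPi (WA : WeierstrassCurve A) (V : Affine K) (Vκ : Affine κ) : Prop where
  gen : V = (WA.map A.subtype).toAffine
  sp : Vκ = (WA.map π).toAffine
  ker : ∀ a : A, a ∈ IsLocalRing.maximalIdeal A → π a = 0

variable {A π}

section Generic

variable {V : Affine K} {Vκ : Affine κ}

theorem redPi_zero : RedPi A π V Vκ 0 0 := Or.inl ⟨rfl, rfl⟩

theorem redPi_some {a b : A} (h : V.Nonsingular (a : K) (b : K))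
    (h' : Vκ.Nonsingular (π a) (π b)) :
    RedPi A π V Vκ (Point.some _ _ h) (Point.some _ _ h') :=
  Or.inr ⟨a, b, h, h', rfl, rfl⟩

theorem RedPi.eq_zero_iff {P : V.Point} {Q : Vκ.Point} (h : RedPi A π V Vκ P Q) :
    P = 0 ↔ Q = 0 := by
  rcases h with ⟨hP, hQ⟩ | ⟨a, b, h, h', hP, hQ⟩
  · exact ⟨fun _ => hQ, fun _ => hP⟩
  · subst hP; subst hQ
    exact ⟨fun h0 => absurd h0 (Point.some_ne_zero h), fun h0 => absurd h0 (Point.some_ne_zero h')⟩

/-- the shape of a reduction of an affine point. -/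
theorem RedPi.of_some {x y : K} {hxy : V.Nonsingular x y} {Q : Vκ.Point}
    (h : RedPi A π V Vκ (Point.some x y hxy) Q) :
    ∃ (a b : A) (h' : Vκ.Nonsingular (π a) (π b)),
      x = (a : K) ∧ y = (b : K) ∧ Q = Point.some _ _ h' := by
  rcases h with ⟨hP, -⟩ | ⟨a, b, h, h', hP, hQ⟩
  · exact absurd hP (Point.some_ne_zero hxy)
  · rw [Point.some.injEq] at hP
    exact ⟨a, b, h', hP.1, hP.2, hQ⟩

theorem RedPi.unique {P : V.Point} {Q Q' : Vκ.Point} (h : RedPi A π V Vκ P Q)
    (h' : RedPi A π V Vκ P Q') : Q = Q' := by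
  rcases P with _ | ⟨x, y, hxy⟩
  · have e1 := (h.eq_zero_iff).mp rfl
    have e2 := (h'.eq_zero_iff).mp rfl
    rw [e1, e2]
  · obtain ⟨a, b, h1, hx, hy, rfl⟩ := h.of_some
    obtain ⟨a', b', h1', hx', hy', rfl⟩ := h'.of_some
    have ea : a = a' := Subtype.ext (hx.symm.trans hx')
    have eb : b = b' := Subtype.ext (hy.symm.trans hy')
    subst ea; subst eb
    rfl

end Generic

/-! ### The comparison with the abstract residue field -/

section Bridge

variable {WA : WeierstrassCurve A} (hker : ∀ a : A, a ∈ IsLocalRing.maximalIdeal A → π a = 0)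

/-- the embedding of the residue field of `A` into `κ` induced by `π`. -/
noncomputable def resEmb : IsLocalRing.ResidueField A →+* κ :=
  Ideal.Quotient.lift (IsLocalRing.maximalIdeal A) π hker

theorem resEmb_residue (a : A) : resEmb hker (IsLocalRing.residue A a) = π a :=
  Ideal.Quotient.lift_mk _ _ _


/-- the embedding of the residue field, as an `A`-algebra homomorphism (`κ` an `A`-algebra via
`π`). -/
noncomputable def resAlgHom :
    letI : Algebra A κ := π.toAlgebra
    IsLocalRing.ResidueField A →ₐ[A] κ :=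
  letI : Algebra A κ := π.toAlgebra
  { resEmb hker with commutes' := fun a => resEmb_residue hker a }

/-- the induced map on points, from the special fibre over the residue field to the fibre along
`π`. -/
noncomputable def pointEmb [DecidableEq (IsLocalRing.ResidueField A)] :
    (spFib A WA).Point →+ ((WA.map π).toAffine).Point :=
  letI : Algebra A κ := π.toAlgebra
  Point.map (W' := WA.toAffine) (S := A) (resAlgHom hker)

theorem pointEmb_zero [DecidableEq (IsLocalRing.ResidueField A)] :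
    pointEmb (WA := WA) hker 0 = 0 := rfl

theorem pointEmb_injective [DecidableEq (IsLocalRing.ResidueField A)] :
    Function.Injective (pointEmb (WA := WA) hker) := by
  let _ : Algebra A κ := π.toAlgebra
  exact Point.map_injective (W' := WA.toAffine) (S := A) (resAlgHom hker)


theorem resAlgHom_residue (a : A) :
    letI : Algebra A κ := π.toAlgebra
    resAlgHom hker (IsLocalRing.residue A a) = π a :=
  resEmb_residue hker a

theorem pointEmb_some [DecidableEq (IsLocalRing.ResidueField A)] {a b : A}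
    (h : (spFib A WA).Nonsingular (IsLocalRing.residue A a) (IsLocalRing.residue A b))
    (h' : ((WA.map π).toAffine).Nonsingular (π a) (π b)) :
    pointEmb (WA := WA) hker (Point.some _ _ h) = Point.some _ _ h' := rfl

include hker in
/-- nonsingularity over the residue field and over `κ` are equivalent. -/
theorem nonsingular_iff (a b : A) :
    ((WA.map π).toAffine).Nonsingular (π a) (π b) ↔
      (spFib A WA).Nonsingular (IsLocalRing.residue A a) (IsLocalRing.residue A b) := by
  let _ : Algebra A κ := π.toAlgebra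
  exact WA.toAffine.baseChange_nonsingular (resAlgHom hker).injective
    (IsLocalRing.residue A a) (IsLocalRing.residue A b)

/-- **The bridge**: `Q` is the reduction of `P` along `π` iff `Q` is the image of the reduction of
`P` in the special fibre over the residue field. -/
theorem redPi_iff [DecidableEq (IsLocalRing.ResidueField A)] {P : (genFib A WA).Point}
    {Q : ((WA.map π).toAffine).Point} :
    RedPi A π (genFib A WA) ((WA.map π).toAffine) P Q ↔
      ∃ R : (spFib A WA).Point, Red A (genFib A WA) (spFib A WA) P R ∧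
        Q = pointEmb (WA := WA) hker R := by
  constructor
  · rintro (⟨hP, hQ⟩ | ⟨a, b, h, h', hP, hQ⟩)
    · exact ⟨0, Or.inl ⟨hP, rfl⟩, hQ⟩
    · have h'' := (nonsingular_iff (WA := WA) hker a b).mp h'
      exact ⟨Point.some _ _ h'', Or.inr ⟨a, b, h, h'', hP, rfl⟩, hQ.trans
        (pointEmb_some (WA := WA) hker h'' h').symm⟩
  · rintro ⟨R, (⟨hP, hR⟩ | ⟨a, b, h, h', hP, hR⟩), hQ⟩
    · subst hR
      exact Or.inl ⟨hP, hQ⟩
    · subst hR
      have h'' := (nonsingular_iff (WA := WA) hker a b).mpr h'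
      exact Or.inr ⟨a, b, h, h'', hP, hQ.trans (pointEmb_some (WA := WA) hker h' h'')⟩

end Bridge

/-! ### The results of `Red39a`, transported -/

section Model

variable {WA : WeierstrassCurve A} {V : Affine K} {Vκ : Affine κ}

/-- **Existence of the reduction** of a point killed by `n`, `v n = 1`, for a model with good
reduction. -/
theorem IsModelPi.exists_red (hM : IsModelPi A π WA V Vκ) (hΔ : IsUnit WA.Δ) {n : ℕ}
    (hn : A.valuation ((n : ℕ) : K) = 1) {P : V.Point} (hP : n • P = 0) :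
    ∃ Q : Vκ.Point, RedPi A π V Vκ P Q := by
  classical
  obtain ⟨rfl, rfl, hker⟩ := hM
  obtain ⟨R, hR⟩ := exists_red_of_nsmul_eq_zero hΔ hn hP
  exact ⟨pointEmb hker R, (redPi_iff hker).mpr ⟨R, hR, rfl⟩⟩

/-- The reduction of a point killed by an odd `m` is killed by `m`. -/
theorem IsModelPi.nsmul_eq_zero (hM : IsModelPi A π WA V Vκ) {P : V.Point} {Q : Vκ.Point}
    (h : RedPi A π V Vκ P Q) {m : ℕ} (hm : Odd m) (hP : m • P = 0) : m • Q = 0 := by
  classical
  obtain ⟨rfl, rfl, hker⟩ := hM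
  obtain ⟨R, hR, rfl⟩ := (redPi_iff hker).mp h
  rw [← map_nsmul, hR.nsmul_eq_zero hm hP, map_zero]

/-- **Injectivity of the reduction on odd torsion prime to the residue characteristic.** -/
theorem IsModelPi.eq_of_red_eq (hM : IsModelPi A π WA V Vκ) {P P' : V.Point} {Q : Vκ.Point}
    (h : RedPi A π V Vκ P Q) (h' : RedPi A π V Vκ P' Q) {m : ℕ} (hm : Odd m)
    (hv : A.valuation ((m : ℕ) : K) = 1) (hP : m • P = 0) (hP' : m • P' = 0) : P = P' := by
  classical
  obtain ⟨rfl, rfl, hker⟩ := hM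
  obtain ⟨R, hR, hQ⟩ := (redPi_iff hker).mp h
  obtain ⟨R', hR', hQ'⟩ := (redPi_iff hker).mp h'
  have e : R = R' := pointEmb_injective hker (hQ.symm.trans hQ')
  subst e
  exact hR.eq_of_red_eq hR' hm hv hP hP'

theorem IsModelPi.red_neg (hM : IsModelPi A π WA V Vκ) {P : V.Point} {Q : Vκ.Point}
    (h : RedPi A π V Vκ P Q) : RedPi A π V Vκ (-P) (-Q) := by
  classical
  obtain ⟨rfl, rfl, hker⟩ := hM
  obtain ⟨R, hR, rfl⟩ := (redPi_iff hker).mp h
  exact (redPi_iff hker).mpr ⟨-R, hR.neg, (map_neg _ _).symm⟩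

/-- **Additivity of the reduction** on the points killed by an odd `m` with `v m = 1`. -/
theorem IsModelPi.red_add (hM : IsModelPi A π WA V Vκ) {P₁ P₂ : V.Point} {Q₁ Q₂ : Vκ.Point}
    (h₁ : RedPi A π V Vκ P₁ Q₁) (h₂ : RedPi A π V Vκ P₂ Q₂) {m : ℕ} (hm : Odd m)
    (hv : A.valuation ((m : ℕ) : K) = 1) (hP₁ : m • P₁ = 0) (hP₂ : m • P₂ = 0) :
    RedPi A π V Vκ (P₁ + P₂) (Q₁ + Q₂) := by
  classical
  obtain ⟨rfl, rfl, hker⟩ := hM
  obtain ⟨R₁, hR₁, rfl⟩ := (redPi_iff hker).mp h₁
  obtain ⟨R₂, hR₂, rfl⟩ := (redPi_iff hker).mp h₂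
  exact (redPi_iff hker).mpr ⟨R₁ + R₂, hR₁.add hR₂ hm hv hP₁ hP₂, (map_add _ _ _).symm⟩

theorem IsModelPi.red_sub (hM : IsModelPi A π WA V Vκ) {P₁ P₂ : V.Point} {Q₁ Q₂ : Vκ.Point}
    (h₁ : RedPi A π V Vκ P₁ Q₁) (h₂ : RedPi A π V Vκ P₂ Q₂) {m : ℕ} (hm : Odd m)
    (hv : A.valuation ((m : ℕ) : K) = 1) (hP₁ : m • P₁ = 0) (hP₂ : m • P₂ = 0) :
    RedPi A π V Vκ (P₁ - P₂) (Q₁ - Q₂) := by
  rw [sub_eq_add_neg, sub_eq_add_neg]
  refine hM.red_add h₁ (hM.red_neg h₂) hm hv hP₁ ?_
  rw [smul_neg, hP₂, neg_zero]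

theorem IsModelPi.red_nsmul (hM : IsModelPi A π WA V Vκ) {P : V.Point} {Q : Vκ.Point}
    (h : RedPi A π V Vκ P Q) {m : ℕ} (hm : Odd m) (hv : A.valuation ((m : ℕ) : K) = 1)
    (hP : m • P = 0) (n : ℕ) : RedPi A π V Vκ (n • P) (n • Q) := by
  induction n with
  | zero => rw [zero_nsmul, zero_nsmul]; exact redPi_zero
  | succ n ih =>
    rw [succ_nsmul, succ_nsmul]
    refine hM.red_add ih h hm hv ?_ hP
    rw [smul_comm, hP, nsmul_zero]

theorem IsModelPi.red_zsmul (hM : IsModelPi A π WA V Vκ) {P : V.Point} {Q : Vκ.Point}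
    (h : RedPi A π V Vκ P Q) {m : ℕ} (hm : Odd m) (hv : A.valuation ((m : ℕ) : K) = 1)
    (hP : m • P = 0) (z : ℤ) : RedPi A π V Vκ (z • P) (z • Q) := by
  rcases z with n | n
  · rw [Int.ofNat_eq_natCast, natCast_zsmul, natCast_zsmul]
    exact hM.red_nsmul h hm hv hP n
  · rw [negSucc_zsmul, negSucc_zsmul]
    exact hM.red_neg (hM.red_nsmul h hm hv hP (n + 1))

end Model

/-! ### The reduction homomorphism on torsion -/

section Hom

variable {WA : WeierstrassCurve A} {V : Affine K} {Vκ : Affine κ}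

theorem mem_torsionBy_natCast_iff {M : Type*} [AddCommGroup M] {n : ℕ} {x : M} :
    x ∈ Submodule.torsionBy ℤ M (n : ℤ) ↔ n • x = 0 := by
  rw [Submodule.mem_torsionBy_iff, natCast_zsmul]

/-- the reduction of an `n`-torsion point (a choice of the unique `Q` with `RedPi P Q`). -/
noncomputable def IsModelPi.redFun (hM : IsModelPi A π WA V Vκ) (hΔ : IsUnit WA.Δ) {n : ℕ}
    (hv : A.valuation ((n : ℕ) : K) = 1) (P : Submodule.torsionBy ℤ V.Point (n : ℤ)) : Vκ.Point :=
  Classical.choose (hM.exists_red hΔ hv (P := (P : V.Point)) (mem_torsionBy_natCast_iff.mp P.2))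

theorem IsModelPi.redFun_spec (hM : IsModelPi A π WA V Vκ) (hΔ : IsUnit WA.Δ) {n : ℕ}
    (hv : A.valuation ((n : ℕ) : K) = 1) (P : Submodule.torsionBy ℤ V.Point (n : ℤ)) :
    RedPi A π V Vκ (P : V.Point) (hM.redFun hΔ hv P) :=
  Classical.choose_spec (hM.exists_red hΔ hv (P := (P : V.Point))
    (mem_torsionBy_natCast_iff.mp P.2))

/-- **The reduction homomorphism** `V(K)[n] → Vκ(κ)[n]`, `n` odd, `v n = 1`, good reduction. -/
noncomputable def IsModelPi.redHom (hM : IsModelPi A π WA V Vκ) (hΔ : IsUnit WA.Δ) {n : ℕ}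
    (hn : Odd n) (hv : A.valuation ((n : ℕ) : K) = 1) :
    Submodule.torsionBy ℤ V.Point (n : ℤ) →+ Submodule.torsionBy ℤ Vκ.Point (n : ℤ) where
  toFun P := ⟨hM.redFun hΔ hv P, mem_torsionBy_natCast_iff.mpr
    (hM.nsmul_eq_zero (hM.redFun_spec hΔ hv P) hn (mem_torsionBy_natCast_iff.mp P.2))⟩
  map_zero' := Subtype.ext <| RedPi.unique (hM.redFun_spec hΔ hv 0) redPi_zero
  map_add' P Q := Subtype.ext <| RedPi.unique (hM.redFun_spec hΔ hv (P + Q))
    (hM.red_add (hM.redFun_spec hΔ hv P) (hM.redFun_spec hΔ hv Q) hn hv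
      (mem_torsionBy_natCast_iff.mp P.2) (mem_torsionBy_natCast_iff.mp Q.2))

theorem IsModelPi.redHom_spec (hM : IsModelPi A π WA V Vκ) (hΔ : IsUnit WA.Δ) {n : ℕ}
    (hn : Odd n) (hv : A.valuation ((n : ℕ) : K) = 1)
    (P : Submodule.torsionBy ℤ V.Point (n : ℤ)) :
    RedPi A π V Vκ (P : V.Point) (hM.redHom hΔ hn hv P : Vκ.Point) :=
  hM.redFun_spec hΔ hv P

/-- `redHom` is characterised by `RedPi`. -/
theorem IsModelPi.redHom_eq_of_redPi (hM : IsModelPi A π WA V Vκ) (hΔ : IsUnit WA.Δ) {n : ℕ}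
    (hn : Odd n) (hv : A.valuation ((n : ℕ) : K) = 1)
    (P : Submodule.torsionBy ℤ V.Point (n : ℤ)) {Q : Vκ.Point}
    (h : RedPi A π V Vκ (P : V.Point) Q) : (hM.redHom hΔ hn hv P : Vκ.Point) = Q :=
  RedPi.unique (hM.redHom_spec hΔ hn hv P) h

theorem IsModelPi.redHom_injective (hM : IsModelPi A π WA V Vκ) (hΔ : IsUnit WA.Δ) {n : ℕ}
    (hn : Odd n) (hv : A.valuation ((n : ℕ) : K) = 1) :
    Function.Injective (hM.redHom hΔ hn hv) := by
  intro P P' h
  apply Subtype.ext
  have h1 := hM.redHom_spec hΔ hn hv P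
  have h2 := hM.redHom_spec hΔ hn hv P'
  rw [h] at h1
  exact hM.eq_of_red_eq h1 h2 hn hv (mem_torsionBy_natCast_iff.mp P.2)
    (mem_torsionBy_natCast_iff.mp P'.2)

end Hom

end Setup

end Fermat.Agent.S52.Spec.RedPi20
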