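/-
S52, brick SPEC20 (helper20), part 3: **specialisation of torsion in a one-parameter family**.

`k ⊆ F` fields, `F` algebraically closed of characteristic zero, `W` a Weierstrass curve over `k[T]`
(a one-parameter family), `n` odd.  If the generic fibre `W_{F(T)}` has (at least) `n²` points
killed by `n`, then for any two parameters `t₀ t₁ : k` with `Δ(tᵢ) ≠ 0` there is an additive
bijection `W_{t₀}(F)[n] ≃ W_{t₁}(F)[n]` commuting with every `σ ∈ Aut(F/k)`
(`exists_equivariant_addEquiv`): both sides are identified with `W(F(T))[n]` by the reduction maps at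
the places `T = t₀`, `T = t₁` (`RedPi20`, `Place20`), which are injective, additive, and intertwine
the coefficientwise action of `σ` on `F(T)` with the action of `σ` on `F`.
-/
import Mathlib
import Fermat.Prelude.Def_FLTPrelim_GaloisRep
import Fermat.Agent.S52.Spec.RedPi20
import Fermat.Agent.S52.Spec.Place20
import Fermat.Agent.DivPoly.CardEq29

set_option autoImplicit false
set_option linter.unusedSectionVars false

open Polynomial WeierstrassCurve WeierstrassCurve.Affine

namespace Fermat.Agent.S52.Spec.Main20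

open Fermat.Agent.S52.Spec.RedPi20 Fermat.Agent.S52.Spec.Place20

section Defs

variable (k : Type*) (F : Type*) [Field k] [Field F] [Algebra k F]

/-- the coefficient map `k[T] → F(T)`. -/
noncomputable def coeffHom : k[X] →+* RatFunc F :=
  (algebraMap F[X] (RatFunc F)).comp (Polynomial.mapRingHom (algebraMap k F))

variable {k}

/-- the generic fibre over `F(T)` of a family over `k[T]`. -/
noncomputable def genericFibre (W : WeierstrassCurve k[X]) : WeierstrassCurve (RatFunc F) :=
  W.map (coeffHom k F)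

/-- the member of the family at the parameter `t`. -/
noncomputable abbrev member (W : WeierstrassCurve k[X]) (t : k) : WeierstrassCurve k :=
  W.map (Polynomial.evalRingHom t)

/-- the coefficient map `k[T] → 𝒪_t` to the local ring of `F(T)` at `T = t`. -/
noncomputable def coeffHomAt (t : k) : k[X] →+* placeAt (algebraMap k F t) :=
  (polyToPlace (algebraMap k F t)).comp (Polynomial.mapRingHom (algebraMap k F))

/-- the family as a Weierstrass curve over the local ring at `T = t`. -/
noncomputable def modelAt (W : WeierstrassCurve k[X]) (t : k) :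
    WeierstrassCurve (placeAt (algebraMap k F t)) :=
  W.map (coeffHomAt F t)

variable {F}

theorem evAt_coeffHomAt (t : k) (p : k[X]) :
    evAt (algebraMap k F t) (coeffHomAt F t p) = algebraMap k F (p.eval t) := by
  rw [coeffHomAt, RingHom.comp_apply, evAt_polyToPlace, Polynomial.coe_mapRingHom,
    Polynomial.eval_map_apply]

theorem isModelPi [DecidableEq F] [DecidableEq (RatFunc F)] (W : WeierstrassCurve k[X]) (t : k) :
    IsModelPi (placeAt (algebraMap k F t)) (evAt (algebraMap k F t)) (modelAt F W t)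
      (genericFibre F W).toAffine ((member W t).toAffine⁄F) := by
  refine ⟨?_, ?_, fun a ha => evAt_eq_zero_of_mem_maximalIdeal ha⟩
  · show W.map (coeffHom k F) = (W.map (coeffHomAt F t)).map (placeAt (algebraMap k F t)).subtype
    rw [WeierstrassCurve.map_map]
    rfl
  · show (W.map (Polynomial.evalRingHom t)).map (algebraMap k F)
      = (W.map (coeffHomAt F t)).map (evAt (algebraMap k F t))
    rw [WeierstrassCurve.map_map, WeierstrassCurve.map_map]
    congr 1
    ext p
    · simp [evAt_coeffHomAt]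
    · simp [evAt_coeffHomAt]


theorem isUnit_modelAt_Δ (W : WeierstrassCurve k[X]) (t : k) (hΔ : (member W t).Δ ≠ 0) :
    IsUnit (modelAt F W t).Δ := by
  apply isUnit_of_evAt_ne_zero
  rw [modelAt, WeierstrassCurve.map_Δ, evAt_coeffHomAt]
  rw [member, WeierstrassCurve.map_Δ, Polynomial.coe_evalRingHom] at hΔ
  exact (map_ne_zero (algebraMap k F)).mpr hΔ

/-- **the specialisation homomorphism** at `T = t` on the `n`-torsion of the generic fibre. -/
noncomputable def redAt [CharZero F] [DecidableEq F] [DecidableEq (RatFunc F)]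
    (W : WeierstrassCurve k[X]) (t : k) (hΔ : (member W t).Δ ≠ 0) {n : ℕ} (hn : Odd n) :
    Submodule.torsionBy ℤ (genericFibre F W).toAffine.Point (n : ℤ) →+
      Submodule.torsionBy ℤ ((member W t).toAffine⁄F).Point (n : ℤ) :=
  (isModelPi W t).redHom (isUnit_modelAt_Δ W t hΔ) hn
    (valuation_natCast_eq_one (algebraMap k F t) hn.pos.ne')

theorem redAt_injective [CharZero F] [DecidableEq F] [DecidableEq (RatFunc F)]
    (W : WeierstrassCurve k[X]) (t : k) (hΔ : (member W t).Δ ≠ 0) {n : ℕ} (hn : Odd n) :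
    Function.Injective (redAt (F := F) W t hΔ hn) :=
  (isModelPi W t).redHom_injective _ hn _

theorem redAt_spec [CharZero F] [DecidableEq F] [DecidableEq (RatFunc F)]
    (W : WeierstrassCurve k[X]) (t : k) (hΔ : (member W t).Δ ≠ 0) {n : ℕ} (hn : Odd n)
    (P : Submodule.torsionBy ℤ (genericFibre F W).toAffine.Point (n : ℤ)) :
    RedPi (placeAt (algebraMap k F t)) (evAt (algebraMap k F t)) (genericFibre F W).toAffine
      ((member W t).toAffine⁄F) (P : (genericFibre F W).toAffine.Point)
      (redAt W t hΔ hn P : ((member W t).toAffine⁄F).Point) :=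
  (isModelPi W t).redHom_spec _ hn _ P

theorem redAt_eq_of_redPi [CharZero F] [DecidableEq F] [DecidableEq (RatFunc F)]
    (W : WeierstrassCurve k[X]) (t : k) (hΔ : (member W t).Δ ≠ 0) {n : ℕ} (hn : Odd n)
    (P : Submodule.torsionBy ℤ (genericFibre F W).toAffine.Point (n : ℤ))
    {Q : ((member W t).toAffine⁄F).Point}
    (h : RedPi (placeAt (algebraMap k F t)) (evAt (algebraMap k F t)) (genericFibre F W).toAffine
      ((member W t).toAffine⁄F) (P : (genericFibre F W).toAffine.Point) Q) :
    (redAt W t hΔ hn P : ((member W t).toAffine⁄F).Point) = Q :=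
  (isModelPi W t).redHom_eq_of_redPi _ hn _ P h

/-- the specialisation homomorphism is bijective when the generic fibre has full `n`-torsion. -/
theorem redAt_bijective [IsAlgClosed F] [CharZero F] [DecidableEq F] [DecidableEq (RatFunc F)]
    (W : WeierstrassCurve k[X]) (t : k) (hΔ : (member W t).Δ ≠ 0) {n : ℕ} (hn : Odd n)
    (hgen : n ^ 2 ≤ Nat.card (Submodule.torsionBy ℤ (genericFibre F W).toAffine.Point (n : ℤ))) :
    Function.Bijective (redAt (F := F) W t hΔ hn) := by
  have hΔF : ((member W t).toAffine⁄F).Δ ≠ 0 := by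
    show ((member W t).map (algebraMap k F)).Δ ≠ 0
    rw [WeierstrassCurve.map_Δ]
    exact (map_ne_zero (algebraMap k F)).mpr hΔ
  have hnF : (n : F) ≠ 0 := Nat.cast_ne_zero.mpr hn.pos.ne'
  have hfin := Fermat.Agent.DivPoly.CountFinal.finite_torsionBy
    (W := (member W t).toAffine⁄F) hn hnF
  have hcard := Fermat.Agent.DivPoly.CardEq29.card_torsionBy_eq
    (W := (member W t).toAffine⁄F) hΔF hn
  exact (redAt_injective W t hΔ hn).bijective_of_nat_card_le (by rw [hcard]; exact hgen)

end Defs

section Equivariance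

variable {k : Type*} {F : Type*} [Field k] [Field F] [Algebra k F]

/-- the coefficientwise action of `σ ∈ Aut(F/k)` fixes the coefficients of the family. -/
theorem mapCoeff_coeffHom (σ : F ≃ₐ[k] F) (p : k[X]) :
    mapCoeff (σ : F →+* F) (coeffHom k F p) = coeffHom k F p := by
  rw [coeffHom, RingHom.comp_apply, mapCoeff_algebraMap, Polynomial.coe_mapRingHom,
    Polynomial.map_map]
  congr 2
  ext x
  exact σ.commutes x

/-- a semilinear endomorphism over a `σ` fixing `t` preserves the local ring at `t` and commutes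
with the evaluation. -/
theorem exists_lift_semilinear {σ : F →+* F} {Φ : RatFunc F →+* RatFunc F}
    (hΦ : ∀ p : F[X], Φ (algebraMap F[X] (RatFunc F) p) = algebraMap F[X] (RatFunc F) (p.map σ))
    {t : F} (ht : σ t = t) (r : placeAt t) :
    ∃ r' : placeAt t, (r' : RatFunc F) = Φ r ∧ evAt t r' = σ (evAt t r) := by
  have key : ∀ s : F, σ t = s →
      ∃ r' : placeAt s, (r' : RatFunc F) = Φ r ∧ evAt s r' = σ (evAt t r) := by
    rintro s rfl
    exact ⟨⟨Φ r, mem_placeAt_of_semilinear hΦ r.2⟩, rfl, evAt_semilinear hΦ r⟩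
  exact key t ht

variable [DecidableEq F] [DecidableEq (RatFunc F)]

/-- the coefficientwise action of `σ`, as an algebra endomorphism of `F(T)` over `k[T]`. -/
noncomputable def genAlgHom (σ : F ≃ₐ[k] F) :
    letI : Algebra k[X] (RatFunc F) := (coeffHom k F).toAlgebra
    RatFunc F →ₐ[k[X]] RatFunc F :=
  letI : Algebra k[X] (RatFunc F) := (coeffHom k F).toAlgebra
  { mapCoeff (σ : F →+* F) with commutes' := mapCoeff_coeffHom σ }

/-- the action of `σ ∈ Aut(F/k)` on the points of the generic fibre. -/
noncomputable def genAct (W : WeierstrassCurve k[X]) (σ : F ≃ₐ[k] F) :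
    (genericFibre F W).toAffine.Point →+ (genericFibre F W).toAffine.Point :=
  letI : Algebra k[X] (RatFunc F) := (coeffHom k F).toAlgebra
  Point.map (W' := W.toAffine) (S := k[X]) (genAlgHom σ)

theorem nonsingular_genAct (W : WeierstrassCurve k[X]) (σ : F ≃ₐ[k] F) {x y : RatFunc F}
    (h : (genericFibre F W).toAffine.Nonsingular x y) :
    (genericFibre F W).toAffine.Nonsingular (mapCoeff (σ : F →+* F) x)
      (mapCoeff (σ : F →+* F) y) := by
  let _ : Algebra k[X] (RatFunc F) := (coeffHom k F).toAlgebra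
  exact (W.toAffine.baseChange_nonsingular (genAlgHom (k := k) σ).injective x y).mpr h

theorem genAct_some (W : WeierstrassCurve k[X]) (σ : F ≃ₐ[k] F) {x y : RatFunc F}
    (h : (genericFibre F W).toAffine.Nonsingular x y) :
    genAct W σ (Point.some x y h) = Point.some _ _ (nonsingular_genAct W σ h) := rfl

/-- **the reduction at `T = t`, `t ∈ k`, intertwines the two actions of `σ`.** -/
theorem redPi_genAct (W : WeierstrassCurve k[X]) (t : k) (σ : F ≃ₐ[k] F)
    {P : (genericFibre F W).toAffine.Point} {Q : ((member W t).toAffine⁄F).Point}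
    (h : RedPi (placeAt (algebraMap k F t)) (evAt (algebraMap k F t)) (genericFibre F W).toAffine
      ((member W t).toAffine⁄F) P Q) :
    RedPi (placeAt (algebraMap k F t)) (evAt (algebraMap k F t)) (genericFibre F W).toAffine
      ((member W t).toAffine⁄F) (genAct W σ P) (σ • Q) := by
  rcases h with ⟨hP, hQ⟩ | ⟨a, b, h1, h1', hP, hQ⟩
  · subst hP; subst hQ
    rw [map_zero, smul_zero]
    exact redPi_zero
  · subst hP; subst hQ
    have hσt : (σ : F →+* F) (algebraMap k F t) = algebraMap k F t := σ.commutes t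
    obtain ⟨a', ha', hea⟩ :=
      exists_lift_semilinear (mapCoeff_algebraMap (σ : F →+* F)) hσt a
    obtain ⟨b', hb', heb⟩ :=
      exists_lift_semilinear (mapCoeff_algebraMap (σ : F →+* F)) hσt b
    have hns := nonsingular_genAct W σ h1
    have hnsk : ((member W t).toAffine⁄F).Nonsingular
        (σ.toAlgHom (evAt (algebraMap k F t) a)) (σ.toAlgHom (evAt (algebraMap k F t) b)) :=
      ((member W t).toAffine.baseChange_nonsingular σ.toAlgHom.injective ..).mpr h1'
    have e2 : σ • (Point.some _ _ h1' : ((member W t).toAffine⁄F).Point)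
        = Point.some _ _ hnsk := rfl
    rw [genAct_some W σ h1, e2]
    have hns' : (genericFibre F W).toAffine.Nonsingular (a' : RatFunc F) (b' : RatFunc F) := by
      rw [ha', hb']; exact hns
    have hnsk' : ((member W t).toAffine⁄F).Nonsingular (evAt (algebraMap k F t) a')
        (evAt (algebraMap k F t) b') := by
      rw [hea, heb]; exact hnsk
    refine Or.inr ⟨a', b', hns', hnsk', ?_, ?_⟩
    · rw [Point.some.injEq]; exact ⟨ha'.symm, hb'.symm⟩
    · rw [Point.some.injEq]; exact ⟨hea.symm, heb.symm⟩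

end Equivariance

section Main

variable {k : Type*} {F : Type*} [Field k] [Field F] [Algebra k F] [CharZero F]
  [DecidableEq F] [DecidableEq (RatFunc F)]

/-- the action of `σ` on the `n`-torsion of the generic fibre. -/
noncomputable def genActTors (W : WeierstrassCurve k[X]) (σ : F ≃ₐ[k] F) (n : ℕ)
    (P : Submodule.torsionBy ℤ (genericFibre F W).toAffine.Point (n : ℤ)) :
    Submodule.torsionBy ℤ (genericFibre F W).toAffine.Point (n : ℤ) :=
  ⟨genAct W σ P, by
    rw [mem_torsionBy_natCast_iff, ← map_nsmul, mem_torsionBy_natCast_iff.mp P.2, map_zero]⟩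

/-- **Equivariance of the specialisation homomorphism.** -/
theorem redAt_genActTors (W : WeierstrassCurve k[X]) (t : k) (hΔ : (member W t).Δ ≠ 0) {n : ℕ}
    (hn : Odd n) (σ : F ≃ₐ[k] F)
    (P : Submodule.torsionBy ℤ (genericFibre F W).toAffine.Point (n : ℤ)) :
    redAt W t hΔ hn (genActTors W σ n P) = σ • redAt W t hΔ hn P := by
  apply Subtype.ext
  exact redAt_eq_of_redPi W t hΔ hn _ (redPi_genAct W t σ (redAt_spec W t hΔ hn P))

variable [IsAlgClosed F]

/-- **Specialisation of torsion in a family.**  If the generic fibre of the family `W` over `k[T]`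
has `n²` points killed by the odd number `n` over `F(T)` (`F ⊇ k` algebraically closed of
characteristic zero), then any two nonsingular members `W_{t₀}`, `W_{t₁}` (`t₀ t₁ : k`) have
`Aut(F/k)`-equivariantly isomorphic `n`-torsion over `F`. -/
theorem exists_equivariant_addEquiv (W : WeierstrassCurve k[X]) {n : ℕ} (hn : Odd n)
    (hgen : n ^ 2 ≤ Nat.card (Submodule.torsionBy ℤ (genericFibre F W).toAffine.Point (n : ℤ)))
    (t₀ t₁ : k) (h₀ : (W.map (Polynomial.evalRingHom t₀)).Δ ≠ 0)
    (h₁ : (W.map (Polynomial.evalRingHom t₁)).Δ ≠ 0) :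
    ∃ φ : Submodule.torsionBy ℤ ((W.map (Polynomial.evalRingHom t₀)).toAffine⁄F).Point (n : ℤ) ≃+
        Submodule.torsionBy ℤ ((W.map (Polynomial.evalRingHom t₁)).toAffine⁄F).Point (n : ℤ),
      ∀ (σ : F ≃ₐ[k] F)
        (x : Submodule.torsionBy ℤ ((W.map (Polynomial.evalRingHom t₀)).toAffine⁄F).Point (n : ℤ)),
        φ (σ • x) = σ • φ x := by
  set e₀ := AddEquiv.ofBijective (redAt (F := F) W t₀ h₀ hn) (redAt_bijective W t₀ h₀ hn hgen)
    with he₀
  set e₁ := AddEquiv.ofBijective (redAt (F := F) W t₁ h₁ hn) (redAt_bijective W t₁ h₁ hn hgen)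
    with he₁
  refine ⟨e₀.symm.trans e₁, fun σ x => ?_⟩
  obtain ⟨P, rfl⟩ := e₀.surjective x
  have h0 : σ • e₀ P = e₀ (genActTors W σ n P) := (redAt_genActTors W t₀ h₀ hn σ P).symm
  rw [h0]
  simp only [AddEquiv.trans_apply, AddEquiv.symm_apply_apply]
  exact redAt_genActTors W t₁ h₁ hn σ P

/-- the members of a short Weierstrass family. -/
theorem map_evalRingHom_short (a4 a6 : k[X]) (t : k) :
    (⟨0, 0, 0, a4, a6⟩ : WeierstrassCurve k[X]).map (Polynomial.evalRingHom t)
      = ⟨0, 0, 0, a4.eval t, a6.eval t⟩ := by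
  simp [WeierstrassCurve.map]

/-- the generic fibre of a short Weierstrass family. -/
theorem genericFibre_short (a4 a6 : k[X]) :
    genericFibre F (⟨0, 0, 0, a4, a6⟩ : WeierstrassCurve k[X])
      = ⟨0, 0, 0, coeffHom k F a4, coeffHom k F a6⟩ := by
  simp [genericFibre, WeierstrassCurve.map]

/-- `exists_equivariant_addEquiv` for a short Weierstrass family `y² = x³ + a4(T) x + a6(T)`. -/
theorem exists_equivariant_addEquiv_short (a4 a6 : k[X]) {n : ℕ} (hn : Odd n)
    (hgen : n ^ 2 ≤ Nat.card (Submodule.torsionBy ℤ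
      (⟨0, 0, 0, coeffHom k F a4, coeffHom k F a6⟩ :
        WeierstrassCurve (RatFunc F)).toAffine.Point (n : ℤ)))
    (t₀ t₁ : k)
    (h₀ : (⟨0, 0, 0, a4.eval t₀, a6.eval t₀⟩ : WeierstrassCurve k).Δ ≠ 0)
    (h₁ : (⟨0, 0, 0, a4.eval t₁, a6.eval t₁⟩ : WeierstrassCurve k).Δ ≠ 0) :
    ∃ φ : Submodule.torsionBy ℤ
          ((⟨0, 0, 0, a4.eval t₀, a6.eval t₀⟩ : WeierstrassCurve k).toAffine⁄F).Point (n : ℤ) ≃+
        Submodule.torsionBy ℤ
          ((⟨0, 0, 0, a4.eval t₁, a6.eval t₁⟩ : WeierstrassCurve k).toAffine⁄F).Point (n : ℤ),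
      ∀ (σ : F ≃ₐ[k] F)
        (x : Submodule.torsionBy ℤ
          ((⟨0, 0, 0, a4.eval t₀, a6.eval t₀⟩ : WeierstrassCurve k).toAffine⁄F).Point (n : ℤ)),
        φ (σ • x) = σ • φ x := by
  have hgen' : n ^ 2 ≤ Nat.card (Submodule.torsionBy ℤ
      (genericFibre F (⟨0, 0, 0, a4, a6⟩ : WeierstrassCurve k[X])).toAffine.Point (n : ℤ)) := by
    rw [genericFibre_short]; exact hgen
  have h := exists_equivariant_addEquiv (F := F) (⟨0, 0, 0, a4, a6⟩ : WeierstrassCurve k[X]) hn
    hgen' t₀ t₁ (by rw [map_evalRingHom_short]; exact h₀) (by rw [map_evalRingHom_short]; exact h₁)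
  rw [map_evalRingHom_short, map_evalRingHom_short] at h
  exact h

end Main

end Fermat.Agent.S52.Spec.Main20
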