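/-
S52, brick SPEC20 (helper20), plug-in: the hypothesis `BGlue80.SpecShape` of the (B)-glue
(helper80) is `Main20.exists_equivariant_addEquiv` at `k = ℚ`, `F = ℚ̄`; hence the (B)-glue
`BGlue80.exists_hom_member_of_polys` without the hypothesis `hspec`.
-/
import Mathlib
import Fermat.Agent.S52.Spec.Main20
import Fermat.Agent.S52.Klein.BGlue80

set_option autoImplicit false

open WeierstrassCurve WeierstrassCurve.Affine

namespace Fermat.Agent.S52.Spec.SpecShape20

open Fermat.Agent.S52.Klein.BGlue80 Fermat.Agent.S52.Spec.Main20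

/-- the specialisation theorem in the shape consumed by the (B)-glue. -/
theorem specShape : SpecShape := by
  intro _ Wp n hn hgen t0 t1 h0 h1
  exact exists_equivariant_addEquiv (k := ℚ) (F := AlgebraicClosure ℚ) Wp hn hgen t0 t1 h0 h1

open Fermat.Agent.S52.Klein Fermat.Agent.S52.Model.TorsTransport74 in
/-- **The (B)-glue without hypotheses on the specialisation theorem**
(`BGlue80.exists_hom_member_of_polys` with `hspec := specShape`). -/
theorem exists_hom_member_of_polys {u0 v0 : AlgebraicClosure ℚ} {a4 a6 : Polynomial ℚ}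
    (W W2 : WeierstrassCurve ℤ) (hΔ : W.Δ ≠ 0) (hΔ2 : W2.Δ ≠ 0)
    (hH0 : kH u0 v0 = -(W.c₄ : AlgebraicClosure ℚ))
    (hT0 : kT u0 v0 = -(W.c₆ : AlgebraicClosure ℚ))
    (hA : a4.map (algebraMap ℚ (AlgebraicClosure ℚ)) = 27 * kH (Upoly u0 v0) (Vpoly u0 v0))
    (hB : a6.map (algebraMap ℚ (AlgebraicClosure ℚ)) = 54 * kT (Upoly u0 v0) (Vpoly u0 v0))
    (t : ℚ)
    (hH : kH (u0 + (t : AlgebraicClosure ℚ) * kfv u0 v0)
      (v0 - (t : AlgebraicClosure ℚ) * kfu u0 v0) = -(W2.c₄ : AlgebraicClosure ℚ))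
    (hT : kT (u0 + (t : AlgebraicClosure ℚ) * kfv u0 v0)
      (v0 - (t : AlgebraicClosure ℚ) * kfu u0 v0) = -(W2.c₆ : AlgebraicClosure ℚ)) :
    ∃ φ : TorsQ (W.map (Int.castRingHom ℚ)) 5 →+ TorsQ (W2.map (Int.castRingHom ℚ)) 5,
      Function.Surjective φ ∧
        ∀ (σ : AlgebraicClosure ℚ ≃ₐ[ℚ] AlgebraicClosure ℚ)
          (x : TorsQ (W.map (Int.castRingHom ℚ)) 5), φ (σ • x) = σ • φ x :=
  BGlue80.exists_hom_member_of_polys specShape W W2 hΔ hΔ2 hH0 hT0 hA hB t hH hT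

end Fermat.Agent.S52.Spec.SpecShape20
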